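/-
Project S35, cell [TORIC-INST] (helper20): CHANGE OF CHART FOR THE LOCAL FACTORISATIONS.
Prefix `s35ti_`.

`B₁, B₂, B₁₂ = fc_chart A0 {x}, {x⁻¹}, {x, x⁻¹}`.  The hypothesis `hloc` of `sfc_main`
(`tori_LocAt π m f B`, helper19) for the chart at infinity `B₂` holds at every closed point where
`x⁻¹` does not vanish, as soon as it holds on the whole chart `B₁` (`s35ti_locAt_xfer`): such a point
is also a point of `B₁`, and `(b₁, h) ↦ (x⁻ᵏ b₁, x⁻ᵏ h)`.  Hence nodes are only ever treated on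
the chart `B₁`; on `B₂` only the points at infinity (`x⁻¹ ∈ 𝔫`, smooth in the modular towers) remain
(`s35ti_locAt_chart2`).  No model hypothesis; only `x ∈ sfc_S B₁`, `x⁻¹ ∈ sfc_S B₂` (fields `hxS1`,
`hxS2` of `ss_Model`).
-/
import Mathlib
import Fermat.Agent.S35.Toric.Core
import Fermat.Agent.SS.Model.ChartChange

set_option autoImplicit false
set_option linter.unusedSectionVars false
set_option linter.style.haveILetI false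

namespace Fermat.Agent.S35

open Fermat.Agent.SS Fermat.Agent.JT3

universe v

section Xfer

variable {A0 : Type*} [CommRing A0] {F0 : Type v} [Field F0] [Algebra A0 F0]

/-- `sfc_piO` is stable under multiplication by the semilocal Gauss ring. -/
theorem s35ti_piO_mul {R : Subring F0} {ϖ a z : F0} (ha : a ∈ sfc_O R ϖ) (hz : z ∈ sfc_piO R ϖ) :
    a * z ∈ sfc_piO R ϖ := by
  obtain ⟨y, hy, rfl⟩ := hz
  exact ⟨a * y, mul_mem ha hy, by ring⟩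

/-- **change of chart for the local factorisations**, abstract form. -/
theorem s35ti_locAt_xfer_abs (π : A0) (B1 B2 B12 : Subalgebra A0 F0) (hle1 : B1 ≤ B12)
    (hle2 : B2 ≤ B12) (x : F0) (hx0 : x ≠ 0) (hx1 : x ∈ B1) (hx2 : x⁻¹ ∈ B2)
    (hc1 : ∀ z ∈ B12, ∃ k : ℕ, x ^ k * z ∈ B1) (hc2 : ∀ z ∈ B12, ∃ k : ℕ, x⁻¹ ^ k * z ∈ B2)
    (hxS1 : x ∈ sfc_S B1.toSubring (algebraMap A0 F0 π))
    (hxS2 : x⁻¹ ∈ sfc_S B2.toSubring (algebraMap A0 F0 π))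
    (m : ℕ) (hm : m ≠ 0) (f : F0) (h1 : tori_LocAt π m f B1)
    (𝔫 : Ideal B2) (h𝔫 : 𝔫.IsMaximal) (hπ : algebraMap A0 B2 π ∈ 𝔫)
    (hy : (⟨x⁻¹, hx2⟩ : B2) ∉ 𝔫) :
    ∃ (b2 : B2) (h : F0), b2 ∉ 𝔫 ∧ h ^ m * f ∈ B2 ∧
      h - (b2 : F0) ∈ sfc_piO B2.toSubring (algebraMap A0 F0 π) := by
  set ϖ := algebraMap A0 F0 π with hϖ
  haveI hpr : 𝔫.IsPrime := h𝔫.isPrime
  have hxy : x * x⁻¹ = 1 := mul_inv_cancel₀ hx0
  -- the two Gauss ideals coincide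
  have hxx : x⁻¹⁻¹ ∈ B12 := by rw [inv_inv]; exact hle1 hx1
  have hP1 : sfc_piO B1.toSubring ϖ = sfc_piO B12.toSubring ϖ :=
    sfc_piO_eq (R := B1.toSubring) (R' := B12.toSubring) hle1 hxS1 (hle2 hx2) hc1
  have hP2 : sfc_piO B2.toSubring ϖ = sfc_piO B12.toSubring ϖ :=
    sfc_piO_eq (R := B2.toSubring) (R' := B12.toSubring) hle2 hxS2 hxx hc2
  -- `B1` lies in the local ring of `B2` at `𝔫`
  have hypow : ∀ k : ℕ, (⟨x⁻¹, hx2⟩ : B2) ^ k ∉ 𝔫 := fun k hk => hy (hpr.mem_of_pow_mem k hk)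
  have hB : ∀ b : B1, (b : F0) ∈ ssm_xf_loc B2 𝔫 := by
    intro b
    obtain ⟨k, hk⟩ := hc2 (b : F0) (hle1 b.2)
    exact ⟨⟨x⁻¹, hx2⟩ ^ k, ⟨_, hk⟩, hypow k, by push_cast; rfl⟩
  haveI hpr1 : (ssm_xf_pull B1 B2 𝔫 hB).IsPrime := ssm_xf_pull_isPrime B1 B2 𝔫 hB
  have hxloc : x ∈ ssm_xf_loc B2 𝔫 := hB ⟨x, hx1⟩
  have hπ1 : algebraMap A0 B1 π ∈ ssm_xf_pull B1 B2 𝔫 hB := by
    rw [ssm_xf_mem_pull]
    exact ssm_xf_coe_mem_max B2 𝔫 hπ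
  -- a closed point of `B1` above the centre
  obtain ⟨𝔫1, h𝔫1, hle⟩ := Ideal.exists_le_maximal _ hpr1.ne_top
  obtain ⟨b1, h, hb1, hhf, hhb⟩ := h1 𝔫1 h𝔫1 (hle hπ1)
  have hb1max : (b1 : F0) ∉ ssm_xf_max B2 𝔫 := fun hmem => hb1 (hle hmem)
  -- clear the denominators
  obtain ⟨k1, hk1⟩ := hc2 (b1 : F0) (hle1 b1.2)
  obtain ⟨k2, hk2⟩ := hc2 (h ^ m * f) (hle1 hhf)
  set k := k1 + k2 with hk
  have hyB2 : ∀ j : ℕ, x⁻¹ ^ j ∈ B2 := fun j => B2.pow_mem hx2 j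
  have hb2mem : x⁻¹ ^ k * (b1 : F0) ∈ B2 := by
    have e : x⁻¹ ^ k * (b1 : F0) = x⁻¹ ^ k2 * (x⁻¹ ^ k1 * (b1 : F0)) := by
      rw [hk, pow_add]; ring
    rw [e]
    exact B2.mul_mem (hyB2 k2) hk1
  refine ⟨⟨x⁻¹ ^ k * (b1 : F0), hb2mem⟩, x⁻¹ ^ k * h, ?_, ?_, ?_⟩
  · intro hmem
    apply hb1max
    have h2 : ((⟨x⁻¹ ^ k * (b1 : F0), hb2mem⟩ : B2) : F0) ∈ ssm_xf_max B2 𝔫 :=
      ssm_xf_coe_mem_max B2 𝔫 hmem
    have h3 : x ^ k * (x⁻¹ ^ k * (b1 : F0)) ∈ ssm_xf_max B2 𝔫 :=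
      ssm_xf_mul_mem_max B2 𝔫 ((ssm_xf_loc B2 𝔫).pow_mem hxloc k) h2
    have e : x ^ k * (x⁻¹ ^ k * (b1 : F0)) = (b1 : F0) := by
      rw [← mul_assoc, ← mul_pow, hxy, one_pow, one_mul]
    rwa [e] at h3
  · obtain ⟨j, hj⟩ : ∃ j, k * m = k2 + j := by
      refine ⟨k * m - k2, ?_⟩
      have : k2 ≤ k * m := by
        calc k2 ≤ k := Nat.le_add_left _ _
          _ = k * 1 := (mul_one k).symm
          _ ≤ k * m := Nat.mul_le_mul_left k (Nat.one_le_iff_ne_zero.2 hm)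
      omega
    have e : (x⁻¹ ^ k * h) ^ m * f = x⁻¹ ^ j * (x⁻¹ ^ k2 * (h ^ m * f)) := by
      rw [mul_pow, ← pow_mul, hj, pow_add]; ring
    rw [e]
    exact B2.mul_mem (hyB2 j) hk2
  · have e : x⁻¹ ^ k * h - ((⟨x⁻¹ ^ k * (b1 : F0), hb2mem⟩ : B2) : F0) =
        x⁻¹ ^ k * (h - (b1 : F0)) := by
      show x⁻¹ ^ k * h - x⁻¹ ^ k * (b1 : F0) = _
      ring
    rw [e, hP2, ← hP1]
    refine s35ti_piO_mul ?_ hhb
    rw [sfc_O_eq (R := B1.toSubring) (R' := B12.toSubring) hle1 hxS1 (hle2 hx2) hc1,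
      ← sfc_O_eq (R := B2.toSubring) (R' := B12.toSubring) hle2 hxS2 hxx hc2]
    exact sfc_le_O (R := B2.toSubring) (hyB2 k)

/-- **change of chart for the local factorisations**: a closed point `𝔫` of the chart at infinity
with `x⁻¹ ∉ 𝔫`. -/
theorem s35ti_locAt_xfer (π : A0) {x : F0} (hx0 : x ≠ 0)
    (hxS1 : x ∈ sfc_S (fc_chart A0 ({x} : Set F0)).toSubring (algebraMap A0 F0 π))
    (hxS2 : x⁻¹ ∈ sfc_S (fc_chart A0 ({x⁻¹} : Set F0)).toSubring (algebraMap A0 F0 π))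
    (m : ℕ) (hm : m ≠ 0) (f : F0) (h1 : tori_LocAt π m f (fc_chart A0 ({x} : Set F0)))
    (𝔫 : Ideal (fc_chart A0 ({x⁻¹} : Set F0))) (h𝔫 : 𝔫.IsMaximal)
    (hπ : algebraMap A0 (fc_chart A0 ({x⁻¹} : Set F0)) π ∈ 𝔫)
    (hy : (⟨x⁻¹, fc_x_mem_chart x⁻¹⟩ : fc_chart A0 ({x⁻¹} : Set F0)) ∉ 𝔫) :
    ∃ (b2 : fc_chart A0 ({x⁻¹} : Set F0)) (h : F0), b2 ∉ 𝔫 ∧
      h ^ m * f ∈ fc_chart A0 ({x⁻¹} : Set F0) ∧
      h - (b2 : F0) ∈ sfc_piO (fc_chart A0 ({x⁻¹} : Set F0)).toSubring (algebraMap A0 F0 π) :=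
  s35ti_locAt_xfer_abs π _ _ _ (fc_chart1_le x) (fc_chart2_le x) x hx0 (fc_x_mem_chart x)
    (fc_x_mem_chart x⁻¹) (fun _ hz => fc_clear1 hx0 hz) (fun _ hz => fc_clear2 hx0 hz)
    hxS1 hxS2 m hm f h1 𝔫 h𝔫 hπ hy

/-- **the chart at infinity**: `tori_LocAt` on `B₂` from `tori_LocAt` on `B₁` and the points at
infinity. -/
theorem s35ti_locAt_chart2 (π : A0) {x : F0} (hx0 : x ≠ 0)
    (hxS1 : x ∈ sfc_S (fc_chart A0 ({x} : Set F0)).toSubring (algebraMap A0 F0 π))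
    (hxS2 : x⁻¹ ∈ sfc_S (fc_chart A0 ({x⁻¹} : Set F0)).toSubring (algebraMap A0 F0 π))
    (m : ℕ) (hm : m ≠ 0) (f : F0) (h1 : tori_LocAt π m f (fc_chart A0 ({x} : Set F0)))
    (hinf : ∀ 𝔫 : Ideal (fc_chart A0 ({x⁻¹} : Set F0)), 𝔫.IsMaximal →
      algebraMap A0 (fc_chart A0 ({x⁻¹} : Set F0)) π ∈ 𝔫 →
      (⟨x⁻¹, fc_x_mem_chart x⁻¹⟩ : fc_chart A0 ({x⁻¹} : Set F0)) ∈ 𝔫 →
      ∃ (b2 : fc_chart A0 ({x⁻¹} : Set F0)) (h : F0), b2 ∉ 𝔫 ∧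
        h ^ m * f ∈ fc_chart A0 ({x⁻¹} : Set F0) ∧
        h - (b2 : F0) ∈
          sfc_piO (fc_chart A0 ({x⁻¹} : Set F0)).toSubring (algebraMap A0 F0 π)) :
    tori_LocAt π m f (fc_chart A0 ({x⁻¹} : Set F0)) := by
  intro 𝔫 h𝔫 hπ
  by_cases hy : (⟨x⁻¹, fc_x_mem_chart x⁻¹⟩ : fc_chart A0 ({x⁻¹} : Set F0)) ∈ 𝔫
  · exact hinf 𝔫 h𝔫 hπ hy
  · exact s35ti_locAt_xfer π hx0 hxS1 hxS2 m hm f h1 𝔫 h𝔫 hπ hy

end Xfer

end Fermat.Agent.S35
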