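/-
Project S35, cell [TORIC-INST] (helper20): [L]-φ AS A `tori_LocProvider`, GENERIC FORM.
Prefix `s35ti_`.

`A0` a discrete valuation ring with uniformiser `π`, `L = Frac A0` of characteristic zero,
`F0 / L(x)` finite, `x` transcendental, `V1, V2` the two Gauss valuations (`ssm_tp_Hyp`), `τ` an
automorphism of `F0`, semilinear over `L`, preserving `𝔪(V_i)`.  IF

* every closed point `𝔫 ∋ π` of the chart `B₁ = fc_chart A0 {x}` is a smooth point or a regular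
  Frobenius-fixed node (`s35l_NodeAt`, helper10), and
* every closed point `𝔫 ∋ π, x⁻¹` of the chart at infinity `B₂ = fc_chart A0 {x⁻¹}` is smooth,

THEN `tori_LocProvider L π x τ Q P1 P2 m` (helper19's hypothesis [L]-φ of `tori_core`) holds for every
`m ≠ 0`:

* `s35ti_locAt_of_smooth`  : the clause of `tori_LocAt` at one smooth point (any chart);
* `s35ti_ord_map`          : `m ∣ ord_P g ∀ P  ⟹  m ∣ ord_P (τ g) ∀ P` for a semilinear `τ`;
* `s35ti_locProvider_of`   : the statement above.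

The points of `B₂` off infinity are treated on `B₁` (`s35ti_locAt_chart2`, `Xfer.lean`).
-/
import Mathlib
import Fermat.Agent.S35.LocalPhi.Main
import Fermat.Agent.S35.ToricInst.Xfer
import Fermat.Agent.S35.Toric.FunField
import Fermat.Agent.SS.Model.ThickBase
import Fermat.Prelude.Def_AlgebraicCurve_BaseChangeGalois

set_option autoImplicit false
set_option linter.unusedSectionVars false
set_option linter.style.haveILetI false

namespace Fermat.Agent.S35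

open Fermat.Agent.SS Fermat.Agent.JT3 IsLocalRing AlgebraicCurve IntermediateField

universe v

section Smooth

variable {A0 : Type*} [CommRing A0] [IsDomain A0] [IsDiscreteValuationRing A0]
  {K : Type*} [Field K] [Algebra A0 K] [IsFractionRing A0 K]
  {F0 : Type v} [Field F0] [Algebra A0 F0] [Algebra K F0] [IsScalarTower A0 K F0]
variable {B : Subalgebra A0 F0} [IsFractionRing B F0] [IsNoetherianRing B] [IsIntegrallyClosed B]
variable {π : A0} {P1 P2 : Ideal B} [hP1 : P1.IsPrime] [hP2 : P2.IsPrime]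

/-- **the clause of `tori_LocAt` at one smooth point.** -/
theorem s35ti_locAt_of_smooth (hπ : Irreducible π) (hϖ0 : algebraMap A0 F0 π ≠ 0)
    (hrad : Ideal.span {algebraMap A0 B π} = P1 ⊓ P2) (h12 : ¬ P1 ≤ P2) (h21 : ¬ P2 ≤ P1)
    {m : ℕ} (hm : m ≠ 0) {f : F0} (hf0 : f ≠ 0)
    (h4a : f - 1 ∈ sfc_piO B.toSubring (algebraMap A0 F0 π))
    (hordf : ∀ P : Place K F0, (m : ℤ) ∣ P.ord f)
    (𝔫 : Ideal B) (h𝔫 : 𝔫.IsMaximal) (hπ𝔫 : algebraMap A0 B π ∈ 𝔫)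
    (hsm : ss_SmoothAt π B 𝔫) :
    ∃ (b1 : B) (h : F0), b1 ∉ 𝔫 ∧ h ^ m * f ∈ B ∧
      h - (b1 : F0) ∈ sfc_piO B.toSubring (algebraMap A0 F0 π) := by
  haveI h𝔫p : 𝔫.IsPrime := h𝔫.isPrime
  haveI := ssl_loc_isNoetherianRing (F0 := F0) 𝔫
  haveI := ssl_loc_isIntegrallyClosed (F0 := F0) 𝔫
  obtain ⟨r, y, s, hs, hsy, hf, hr⟩ := s35l_locAt_smooth 𝔫 hϖ0 hπ𝔫 hrad h12 h21 hsm hm hf0 h4a
    fun 𝔮 h𝔮 => ssl_hdiv_of_places (K := K) (R := ssl_locSub F0 𝔫) hπ hf0 m hordf 𝔮 h𝔮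
  exact sfc_loc_of_factor B π (s35l_hnu 𝔫 hϖ0 hπ𝔫) m hm _ 𝔫 hs hsy hf hr

end Smooth

section Ord

variable {K : Type*} [Field K] {F0 : Type v} [Field F0] [Algebra K F0]

/-- a semilinear automorphism preserves the divisibility of all orders. -/
theorem s35ti_ord_map (τ : F0 ≃+* F0) (τ0 : K ≃+* K)
    (hτK : ∀ a : K, τ (algebraMap K F0 a) = algebraMap K F0 (τ0 a)) {m : ℕ} {g : F0}
    (hord : ∀ P : Place K F0, (m : ℤ) ∣ P.ord g) (P : Place K F0) :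
    (m : ℤ) ∣ P.ord (τ g) := by
  let γ : SemilinearAut K F0 := ⟨(τ, τ0), hτK⟩
  have h := SemilinearAut.ord_smul γ (γ⁻¹ • P) g
  rw [smul_inv_smul] at h
  have e : γ • g = τ g := rfl
  rw [← e, h]
  exact hord _

end Ord

section Main

variable {A0 L : Type*} {F0 : Type v} [CommRing A0] [IsDomain A0] [IsDiscreteValuationRing A0]
  [Field L] [Field F0] [Algebra A0 L] [IsFractionRing A0 L] [CharZero L] [Algebra L F0]
  [Algebra A0 F0] [IsScalarTower A0 L F0]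

/-- `tori_UnitV` (helper19) gives `ssl_UnitAt` (the two forms of "unit at the prime `P`"). -/
theorem s35ti_unitAt_of_unitV {B : Subalgebra A0 F0} {P : Ideal B} {z : F0}
    (h : tori_UnitV P z) : ssl_UnitAt F0 P z := by
  obtain ⟨s, t, hs, ht, hst⟩ := h
  exact ⟨t, s, ht, hs, by rw [mul_comm]; exact hst⟩

set_option synthInstance.maxHeartbeats 200000 in
set_option maxHeartbeats 1600000 in
/-- **[L]-φ as a `tori_LocProvider`, generic form.** -/
theorem s35ti_locProvider_of {π : A0} (hπ : Irreducible π) {x : F0} (hx : Transcendental L x)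
    [FiniteDimensional L⟮x⟯ F0] {V1 V2 : ValuationSubring F0}
    (H : ssm_tp_Hyp (algebraMap A0 (Algebra.adjoin A0 ({x} : Set F0)) π) V1 V2)
    (τ : F0 ≃+* F0) (τ0 : L ≃+* L)
    (hτL : ∀ a : L, τ (algebraMap L F0 a) = algebraMap L F0 (τ0 a))
    {Q : ℕ} (hQ : 2 ≤ Q)
    (hτV1 : ∀ z : F0, z ∈ V1.nonunits → τ z ∈ V1.nonunits)
    (hτV2 : ∀ z : F0, z ∈ V2.nonunits → τ z ∈ V2.nonunits)
    (hpts : ∀ 𝔫 : Ideal (fc_chart A0 ({x} : Set F0)), 𝔫.IsMaximal →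
      algebraMap A0 (fc_chart A0 ({x} : Set F0)) π ∈ 𝔫 →
      ss_SmoothAt π (fc_chart A0 ({x} : Set F0)) 𝔫 ∨
        s35l_NodeAt π τ Q (ssm_tp_P (fc_chart A0 ({x} : Set F0)) V1)
          (ssm_tp_P (fc_chart A0 ({x} : Set F0)) V2) 𝔫)
    (hinf : ∀ 𝔫 : Ideal (fc_chart A0 ({x⁻¹} : Set F0)), 𝔫.IsMaximal →
      algebraMap A0 (fc_chart A0 ({x⁻¹} : Set F0)) π ∈ 𝔫 →
      (⟨x⁻¹, fc_x_mem_chart x⁻¹⟩ : fc_chart A0 ({x⁻¹} : Set F0)) ∈ 𝔫 →
      ss_SmoothAt π (fc_chart A0 ({x⁻¹} : Set F0)) 𝔫)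
    {m : ℕ} (hm : m ≠ 0) :
    tori_LocProvider L π x τ Q (ssm_tp_P (fc_chart A0 ({x, x⁻¹} : Set F0)) V1)
      (ssm_tp_P (fc_chart A0 ({x, x⁻¹} : Set F0)) V2) m := by
  intro g' hg'0 hU1 hU2 h4a hord
  have hx0 : x ≠ 0 := by
    rintro rfl
    exact hx isAlgebraic_zero
  have hxi : Transcendental L x⁻¹ := fun h => hx (IsAlgebraic.inv_iff.mp h)
  have hxA : Transcendental A0 x := fc_ff_transcendental (L := L) hx
  have hxiA : Transcendental A0 x⁻¹ := fc_ff_transcendental (L := L) hxi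
  haveI hfd2 : FiniteDimensional L⟮x⁻¹⟯ F0 := by
    rw [rt_adjoin_inv]; infer_instance
  haveI : IsIntegrallyClosed (Algebra.adjoin A0 ({x} : Set F0)) := fc_ff_isIntegrallyClosed hxA
  haveI : FaithfulSMul (Algebra.adjoin A0 ({x} : Set F0)) F0 :=
    (faithfulSMul_iff_algebraMap_injective _ _).2 Subtype.val_injective
  haveI : IsIntegrallyClosed (Algebra.adjoin A0 ({x⁻¹} : Set F0)) := fc_ff_isIntegrallyClosed hxiA
  haveI : FaithfulSMul (Algebra.adjoin A0 ({x⁻¹} : Set F0)) F0 :=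
    (faithfulSMul_iff_algebraMap_injective _ _).2 Subtype.val_injective
  have H' := ssm_tp_ff_hyp_inv (L := L) hπ hx H
  have hC12 := ssm_tp_ff_chart12 (L := L) hπ hx
  have hC1 := ssm_tp_ff_chart (L := L) hπ hx
  have hC2 := ssm_tp_ff_chart (L := L) hπ hxi
  have hϖ0 : algebraMap A0 F0 π ≠ 0 := H.algebraMap_ne_zero
  -- the function `f = τ g' / g'^Q`
  have hτg : τ g' ≠ 0 := (map_ne_zero τ).2 hg'0
  have hf0 : τ g' / g' ^ Q ≠ 0 := div_ne_zero hτg (pow_ne_zero Q hg'0)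
  have hordτ : ∀ P : Place L F0, (m : ℤ) ∣ P.ord (τ g') := s35ti_ord_map τ τ0 hτL hord
  have hordf : ∀ P : Place L F0, (m : ℤ) ∣ P.ord (τ g' / g' ^ Q) := by
    intro P
    rw [div_eq_mul_inv, P.ord_mul hτg (inv_ne_zero (pow_ne_zero Q hg'0)), P.ord_inv]
    have h1 : P.ord (g' ^ Q) = (Q : ℤ) * P.ord g' := by
      have := P.ord_zpow g' (Q : ℤ)
      rwa [zpow_natCast] at this
    rw [h1]
    exact dvd_add (hordτ P) (Dvd.dvd.neg_right (Dvd.dvd.mul_left (hord P) _))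
  -- the congruence on the three charts
  have h4aV := (H.mem_piO_iff hC12).1 h4a
  have h4a1 : τ g' / g' ^ Q - 1 ∈
      sfc_piO (fc_chart A0 ({x} : Set F0)).toSubring (algebraMap A0 F0 π) :=
    (H.mem_piO_iff hC1).2 h4aV
  have h4a2 : τ g' / g' ^ Q - 1 ∈
      sfc_piO (fc_chart A0 ({x⁻¹} : Set F0)).toSubring (algebraMap A0 F0 π) :=
    (H'.mem_piO_iff hC2).2 h4aV
  -- the chart `B₁`
  have hloc1 : tori_LocAt π m (τ g' / g' ^ Q) (fc_chart A0 ({x} : Set F0)) := by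
    haveI := ssm_ths_chart_isFractionRing (A0 := A0) (L := L) x
    haveI := ssm_ths_chart_isNoetherianRing (A0 := A0) (L := L) hx
    haveI := ssm_ths_chart_isIntegrallyClosed (A0 := A0) (L := L) x
    haveI := H.P1_isPrime hC1
    haveI := H.P2_isPrime hC1
    refine s35l_locAt_chart' (K := L) hπ hϖ0 (H.P_inf hC1 _ rfl) (H.P_not_le12 hC1)
      (H.P_not_le21 hC1) τ hQ ?_ ?_ hpts hm hg'0 ?_ ?_ h4a1 hord hordτ
    · intro b b' hb hbP
      rw [H.mem_P1 hC1] at hbP ⊢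
      rw [hb]
      exact hτV1 _ hbP
    · intro b b' hb hbP
      rw [H.mem_P2 hC1] at hbP ⊢
      rw [hb]
      exact hτV2 _ hbP
    · exact s35ti_unitAt_of_unitV
        ((tori_tp_unitV1_iff H hC1).1 ((tori_tp_unitV1_iff H hC12).2 hU1))
    · exact s35ti_unitAt_of_unitV
        ((tori_tp_unitV2_iff H hC1).1 ((tori_tp_unitV2_iff H hC12).2 hU2))
  refine ⟨hloc1, ?_⟩
  -- the chart at infinity
  have hxS1 : x ∈ sfc_S (fc_chart A0 ({x} : Set F0)).toSubring (algebraMap A0 F0 π) :=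
    (H.mem_S_iff hC1).2 ⟨fc_x_mem_chart x,
      H.over1.not_mem_nonunits (sfc_ff_prime_pi hπ hxA).2,
      H.over2.not_mem_nonunits (sfc_ff_prime_pi hπ hxA).2⟩
  have hxS2 : x⁻¹ ∈ sfc_S (fc_chart A0 ({x⁻¹} : Set F0)).toSubring (algebraMap A0 F0 π) :=
    (H'.mem_S_iff hC2).2 ⟨fc_x_mem_chart x⁻¹,
      H'.over1.not_mem_nonunits (sfc_ff_prime_pi hπ hxiA).2,
      H'.over2.not_mem_nonunits (sfc_ff_prime_pi hπ hxiA).2⟩
  refine s35ti_locAt_chart2 π hx0 hxS1 hxS2 m hm _ hloc1 ?_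
  intro 𝔫 h𝔫 hπ𝔫 hy
  haveI := ssm_ths_chart_isFractionRing (A0 := A0) (L := L) x⁻¹
  haveI := ssm_ths_chart_isNoetherianRing (A0 := A0) (L := L) hxi
  haveI := ssm_ths_chart_isIntegrallyClosed (A0 := A0) (L := L) x⁻¹
  haveI := H'.P1_isPrime hC2
  haveI := H'.P2_isPrime hC2
  exact s35ti_locAt_of_smooth (K := L) hπ hϖ0 (H'.P_inf hC2 _ rfl) (H'.P_not_le12 hC2)
    (H'.P_not_le21 hC2) hm hf0 h4a2 hordf 𝔫 h𝔫 hπ𝔫 (hinf 𝔫 h𝔫 hπ𝔫 hy)

end Main

end Fermat.Agent.S35
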