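/-
Project S35, cell [TORIC-INST], LEGENDRE tower (helper20).  Prefix `s35ti_`.
Twin of helper12's `S35/FinalHes/{Model,Toric}.lean`.

`L ⊆ Q̄` a number field containing a primitive `N'`-th root of unity, `O` a discrete valuation ring
of `L` of odd residue characteristic `q ∤ N'`, `π` a uniformiser (`π = q` over the unramified bases
of S35), `φ` a Frobenius lift at `O` (`s35nf_FrobAt O φ q`), `τ = φ_E²` (`s35ti_leg_tau`):

* `s35ti_inert_refl`        : `ss_Inert O (RingEquiv.refl L)`;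
* `s35ti_leg_model`         : `ss_Model π λ (RingEquiv.refl _) (RingEquiv.refl _) P1 P2` for
  `E = lg_E L (N' q)` — the `M` of `tori_core` — CLOSED TERM (`ssm_fln_model_of_node` at `σ := id` +
  helper14's node clause `ssm_nlb_nodeHyp`);
* `s35ti_leg_toricAt_of_loc`: `tori_LocProvider L π λ τ (q²) P1 P2 m → s35_ToricAt O hπ N' q hq2 hqN' φ m`
  (`tori_toric_ff` with `M := s35ti_leg_model` and the `τ`-clauses of `TauInst/Leg.lean`).
-/
import Mathlib
import Fermat.Agent.SS.Model.NodeLegB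
import Fermat.Agent.S35.TauInst.Leg
import Fermat.Agent.S35.Toric.FunField
import Fermat.Agent.S35.Seams

set_option autoImplicit false
set_option linter.style.haveILetI false
set_option linter.unusedSectionVars false
set_option linter.unusedVariables false

noncomputable section

namespace Fermat.Agent.S35

open Fermat.Agent.SS Fermat.Agent.JT3 IntermediateField ModularCurve IsLocalRing AlgebraicCurve

/-- the identity is inert at every valuation ring. -/
theorem s35ti_inert_refl {L : Type*} [Field L] (O : ValuationSubring L) :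
    ss_Inert O (RingEquiv.refl L) := by
  intro x _
  have h0 : (0 : L) ∈ O.nonunits := by
    rw [ValuationSubring.mem_nonunits_iff]
    simp
  constructor
  · rw [RingEquiv.refl_apply, sub_self]
    exact h0
  · show x - x ∈ O.nonunits
    rw [sub_self]
    exact h0

section NF

variable (L : Type) [Field L] [NumberField L] [Algebra L (AlgebraicClosure ℚ)]
  (O : ValuationSubring L) [IsDiscreteValuationRing O] {π : O} (hπ : Irreducible π)
variable (N' q : ℕ) [NeZero N'] [NeZero q] [hq : Fact q.Prime] [CharP (ResidueField O) q]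
  (hq2 : ¬ 2 ∣ q) (hqN' : ¬ q ∣ N') (ζ : L) (hζ : IsPrimitiveRoot ζ N')

include hζ in
set_option synthInstance.maxHeartbeats 200000 in
set_option maxHeartbeats 1600000 in
/-- **the two-component model of the Legendre tower with `σ = id`** over any number-field base
`(L, O, π)`, `ζ_{N'} ∈ L`, odd residue characteristic `q ∤ N'`. -/
theorem s35ti_leg_model :
    ss_Model π (lg_lamE (N' * q) : ↥(lg_E L (N' * q))) (RingEquiv.refl ↥(lg_E L (N' * q)))
      (RingEquiv.refl ↥O)
      (ssm_tp_P (fc_chart ↥O ({lg_lamE (N' * q), (lg_lamE (N' * q))⁻¹} :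
        Set ↥(lg_E L (N' * q)))) (ssm_gl_V1 O hπ N' q))
      (ssm_tp_P (fc_chart ↥O ({lg_lamE (N' * q), (lg_lamE (N' * q))⁻¹} :
        Set ↥(lg_E L (N' * q)))) (ssm_gl_V2 O hπ N' q hq2 hqN')) := by
  have hE : ∀ z ∈ lg_E L (N' * q),
      coeffMap ((RingEquiv.refl L : L ≃+* L) : L →+* L) z ∈ lg_E L (N' * q) := by
    intro z hz
    have : ((RingEquiv.refl L : L ≃+* L) : L →+* L) = RingHom.id L := rfl
    rw [this, coeffMap_id]
    exact hz
  have hE' : ∀ z ∈ lg_E L (N' * q),
      coeffMap (((RingEquiv.refl L : L ≃+* L).symm : L ≃+* L) : L →+* L) z ∈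
        lg_E L (N' * q) := by
    intro z hz
    have : (((RingEquiv.refl L : L ≃+* L).symm : L ≃+* L) : L →+* L) = RingHom.id L := rfl
    rw [this, coeffMap_id]
    exact hz
  have h : ∀ z ∈ O, (RingEquiv.refl L : L ≃+* L) z ∈ O := fun z hz => hz
  have h' : ∀ z ∈ O, (RingEquiv.refl L : L ≃+* L).symm z ∈ O := fun z hz => hz
  have M := ssm_fln_model_of_node L O hπ N' q hq2 hqN' ζ hζ (RingEquiv.refl L)
    (s35ti_inert_refl O) hE hE' h h'
    (ssm_nlb_nodeHyp L O hπ N' q hq2 hqN' ζ hζ (RingEquiv.refl L) (s35ti_inert_refl O))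
  have e1 : ss_sigmaE (RingEquiv.refl L) (lg_E L (N' * q)) hE hE' =
      RingEquiv.refl ↥(lg_E L (N' * q)) := by
    apply RingEquiv.ext
    intro z
    apply Subtype.ext
    show coeffMap (RingHom.id L) (z : LaurentSeries L) = z
    exact coeffMap_id _
  have e2 : ss_sigmaO O (RingEquiv.refl L) h h' = RingEquiv.refl ↥O :=
    RingEquiv.ext fun z => Subtype.ext rfl
  rw [e1, e2] at M
  exact M

variable (φ : L ≃+* L) (hφ : s35nf_FrobAt O φ q)

include hζ hφ in
set_option synthInstance.maxHeartbeats 200000 in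
set_option maxHeartbeats 1600000 in
/-- **[TORIC] for the Legendre tower from [L]-φ.** -/
theorem s35ti_leg_toricAt_of_loc (m : ℕ) (hm : IsUnit (m : O))
    (hL : tori_LocProvider L π (lg_lamE (N' * q) : ↥(lg_E L (N' * q)))
      (s35ti_leg_tau (N' * q) φ) (q ^ 2)
      (ssm_tp_P (fc_chart ↥O ({lg_lamE (N' * q), (lg_lamE (N' * q))⁻¹} :
        Set ↥(lg_E L (N' * q)))) (ssm_gl_V1 O hπ N' q))
      (ssm_tp_P (fc_chart ↥O ({lg_lamE (N' * q), (lg_lamE (N' * q))⁻¹} :
        Set ↥(lg_E L (N' * q)))) (ssm_gl_V2 O hπ N' q hq2 hqN')) m) :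
    s35_ToricAt O hπ N' q hq2 hqN' φ m := by
  intro g' hg'0 hord hred
  obtain ⟨k1, k2, hk1, hk2, h1, h2⟩ := hred
  have hqO : ((q : ℕ) : O) ∈ maximalIdeal O := ssm_fln_q_mem L O q
  have hq2' : q ≠ 2 := ssm_fl_ne_two q hq2
  have hp := ssm_ll_prime L N' hπ q hqO hq2' hqN' ζ hζ
  haveI := ssm_go_isScalarTower O (lg_E L (N' * q))
  haveI := lgf_finite L (N' * q)
  have hx : Transcendental L (lg_lamE (L := L) (N' * q)) :=
    lgf_lam_transcendental L (N' * q) two_ne_zero
  have H := ssm_gl_hyp O hπ N' q hq2 hqN' hp.1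
  have M := s35ti_leg_model L O hπ N' q hq2 hqN' ζ hζ
  obtain ⟨c, r, hr0, hc⟩ := tori_toric_ff (L := L) (K := L) hπ hx H M
    (s35ti_leg_tau (N' * q) φ) (s35ti_tau0 hφ) (q ^ 2)
    (s35ti_leg_base O (N' * q) φ hφ) (s35ti_tau0_dvd hφ hπ.maximalIdeal_eq)
    (s35ti_leg_x (N' * q) φ) (s35ti_leg_V1m O hπ N' q φ hφ)
    (s35ti_leg_V2m O hπ N' q hq2 hqN' φ hφ) m hm hL hg'0 hord hk1 hk2 h1 h2
  exact ⟨(c : L), r, hr0, hc⟩

end NF

end Fermat.Agent.S35
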