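/-
Project S35, cell [TORIC-INST], LEGENDRE tower, number-field level (helper20).  Prefix `s35ti_`.

* `s35ti_frobAt_of_frobenius` : `A` a valuation ring of `Q̄`, `φ` a Frobenius element at `A`,
  `L1 ⊆ Q̄` a subfield, `φ1` a ring automorphism of `L1` induced by `φ`: then `φ1` is a Frobenius lift
  at `A ∩ L1` (`s35nf_FrobAt`);
* `s35ti_leg_LocHyp N' q hq2 hqN'` : [L]-φ for the Legendre tower, as ONE Prop: the
  `tori_LocProvider` over every number-field base `(L, O)` with uniformiser `q`, `ζ_{N'} ∈ L`, every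
  Frobenius lift `φ1` at `O` and every `m` which is a unit of `O`;
* `s35ti_leg_toricNF_of_loc` : `s35ti_leg_LocHyp N' q hq2 hqN' → s35_ToricNF N' q hq2 hqN'`
  (helper6's seam of `S35/SeamsNF.lean`; `T := {ζ_{N'}}`).
-/
import Mathlib
import Fermat.Agent.S35.ToricInst.Leg
import Fermat.Agent.S35.SeamsNF
import Fermat.Agent.S35.DescU.InertiaField

set_option autoImplicit false
set_option linter.style.haveILetI false
set_option linter.unusedSectionVars false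
set_option linter.unusedVariables false

noncomputable section

namespace Fermat.Agent.S35

open Fermat.Agent.SS Fermat.Agent.JT3 IntermediateField ModularCurve IsLocalRing AlgebraicCurve

local notation "GQ" => (AlgebraicClosure ℚ ≃ₐ[ℚ] AlgebraicClosure ℚ)
local notation "Qb" => AlgebraicClosure ℚ

/-- a ring automorphism of a subfield `L1 ⊆ Q̄` induced by a Frobenius element at `A` is a Frobenius
lift at `A ∩ L1`. -/
theorem s35ti_frobAt_of_frobenius (A : ValuationSubring Qb) {q : ℕ} (φ : GQ)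
    (hφ : A.IsFrobeniusAt φ q) (L1 : IntermediateField ℚ Qb) (φ1 : ↥L1 ≃+* ↥L1)
    (hφ1 : ∀ x : ↥L1, ((φ1 x : ↥L1) : Qb) = φ (x : Qb)) :
    s35nf_FrobAt (A.comap (algebraMap ↥L1 Qb)) φ1 q := by
  have hsymm : ∀ x : ↥L1, ((φ1.symm x : ↥L1) : Qb) = φ⁻¹ (x : Qb) := by
    intro x
    have h1 := hφ1 (φ1.symm x)
    rw [RingEquiv.apply_symm_apply] at h1
    have h2 : φ⁻¹ (x : Qb) = φ⁻¹ (φ ((φ1.symm x : ↥L1) : Qb)) := by rw [h1]
    rw [h2]
    exact (φ.symm_apply_apply _).symm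
  have hinv : φ⁻¹ ∈ A.decompositionSubgroup ℚ :=
    inv_mem hφ.mem_decompositionSubgroup
  intro x hx
  have hxA : (x : Qb) ∈ A := hx
  refine ⟨?_, ?_, ?_⟩
  · show ((φ1 x : ↥L1) : Qb) ∈ A
    rw [hφ1]
    exact s35d_frob_mem hφ hxA
  · show ((φ1.symm x : ↥L1) : Qb) ∈ A
    rw [hsymm]
    exact s35d_decomp_mem hinv hxA
  · rw [dsc_mem_comap_nonunits_iff]
    have e : algebraMap ↥L1 Qb (φ1 x - x ^ q) = φ (x : Qb) - (x : Qb) ^ q := by
      rw [map_sub, map_pow]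
      congr 1
      exact hφ1 x
    rw [e]
    exact s35d_frob_congr hφ hxA

section NF

variable (N' q : ℕ) [NeZero N'] [NeZero q] [hq : Fact q.Prime] (hq2 : ¬ 2 ∣ q) (hqN' : ¬ q ∣ N')

/-- **[L]-φ for the Legendre tower**, as one Prop: the local factorisations of `τ g' / g'^(q²)`
on both charts over every unramified number-field base. -/
def s35ti_leg_LocHyp : Prop :=
  ∀ (L : Type) [Field L] [NumberField L] [Algebra L Qb] (O : ValuationSubring L)
    [IsDiscreteValuationRing O] [CharP (ResidueField O) q] (hπ : Irreducible ((q : ℕ) : ↥O))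
    (ζ : L) (_ : IsPrimitiveRoot ζ N') (φ1 : L ≃+* L) (_ : s35nf_FrobAt O φ1 q)
    (m : ℕ) (_ : IsUnit ((m : ℕ) : ↥O)),
    tori_LocProvider L ((q : ℕ) : ↥O) (lg_lamE (N' * q) : ↥(lg_E L (N' * q)))
      (s35ti_leg_tau (N' * q) φ1) (q ^ 2)
      (ssm_tp_P (fc_chart ↥O ({lg_lamE (N' * q), (lg_lamE (N' * q))⁻¹} :
        Set ↥(lg_E L (N' * q)))) (ssm_gl_V1 O hπ N' q))
      (ssm_tp_P (fc_chart ↥O ({lg_lamE (N' * q), (lg_lamE (N' * q))⁻¹} :
        Set ↥(lg_E L (N' * q)))) (ssm_gl_V2 O hπ N' q hq2 hqN')) m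

/-- **[TORIC] over the unramified number fields (Legendre cover) from [L]-φ.** -/
theorem s35ti_leg_toricNF_of_loc (hLoc : s35ti_leg_LocHyp N' q hq2 hqN') :
    s35_ToricNF N' q hq2 hqN' := by
  intro A hA φ hφ
  obtain ⟨ζ', hζ'⟩ := HasEnoughRootsOfUnity.exists_primitiveRoot Qb N'
  refine ⟨{ζ'}, fun L1 hfd hT => ?_⟩
  intro _ _ hπ φ1 hφ1 m hqm _
  have hζmem : ζ' ∈ L1 := hT (by simp)
  have hζ : IsPrimitiveRoot (⟨ζ', hζmem⟩ : ↥L1) N' :=
    (IsPrimitiveRoot.map_iff_of_injective (f := algebraMap ↥L1 Qb)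
      (FaithfulSMul.algebraMap_injective ↥L1 Qb)).1 hζ'
  haveI : NumberField ↥L1 := { to_charZero := inferInstance, to_finiteDimensional := hfd }
  have hmem := lg_natCast_mem_maximalIdeal A hA ↥L1
  have hmu : IsUnit ((m : ℕ) : ↥(A.comap (algebraMap ↥L1 Qb))) :=
    lg_isUnit_natCast hmem ((Nat.Prime.coprime_iff_not_dvd hq.out).2 hqm).symm
  have hF := s35ti_frobAt_of_frobenius A φ hφ L1 φ1 hφ1
  exact s35ti_leg_toricAt_of_loc ↥L1 (A.comap (algebraMap ↥L1 Qb)) hπ N' q hq2 hqN'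
    ⟨ζ', hζmem⟩ hζ φ1 hF m hmu
    (hLoc ↥L1 (A.comap (algebraMap ↥L1 Qb)) hπ ⟨ζ', hζmem⟩ hζ φ1 hF m hmu)

end NF

end Fermat.Agent.S35
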