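/-
Project S35, cell [TORIC-INST] (helper20): THE REGULAR FROBENIUS-FIXED NODE (`s35l_NodeAt`, helper10)
FROM THE CROSSING PACKAGE AND THICKNESS ONE.  Prefix `s35ti_`.  Tower-independent.

* `s35ti_frobAt_of_restrict` : `s35l_FrobAt τ Q 𝔫` from `τ z ∈ B ↔ z ∈ B` and
  `τ_B b - b^Q ∈ 𝔫` (the output shape of `s35ti_leg_node` / `s35ti_hes_node`);
* `s35ti_nodeAt_of`          : `s35l_NodeAt π τ Q P1 P2 𝔫` from the Frobenius clause, global elements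
  `U ∈ P2`, `V ∈ P1` with `𝔫 B_𝔫 = (π, U, V)` (clause `cross` of `ssm_nx_Cross`) and thickness one
  (`u v = π`, `P2 B_𝔫 = (u)`, `P1 B_𝔫 = (v)`: the conclusion of `ssm_nx_thick`); `e = 1`;
* `s35ti_nodeAt_of_cross`    : the same with the package `C : ssm_nx_Cross …` as input.
-/
import Mathlib
import Fermat.Agent.S35.LocalPhi.Main
import Fermat.Agent.S35.TauInst.Abstract
import Fermat.Agent.SS.Model.NodeCross

set_option autoImplicit false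
set_option linter.unusedSectionVars false
set_option linter.style.haveILetI false

namespace Fermat.Agent.S35

open Fermat.Agent.SS Fermat.Agent.JT3 Polynomial

universe v

section NodeOf

variable {A0 : Type*} [CommRing A0] {F0 : Type v} [Field F0] [Algebra A0 F0]
  {B : Subalgebra A0 F0}

/-- the Frobenius clause of `s35l_NodeAt` from the restriction `τ_B`. -/
theorem s35ti_frobAt_of_restrict (τ : F0 ≃+* F0) {Q : ℕ} (hQ : Q ≠ 0) (𝔫 : Ideal B)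
    (hτB : ∀ z, τ z ∈ B ↔ z ∈ B)
    (hfrob : ∀ b : B, s35ti_restrict τ B hτB b - b ^ Q ∈ 𝔫) : s35l_FrobAt τ Q 𝔫 where
  mem b hb := (hτB b).2 hb
  symm_mem b hb := by
    rw [← hτB, RingEquiv.apply_symm_apply]
    exact hb
  frob b b' hb := by
    have : b' = s35ti_restrict τ B hτB b := Subtype.ext hb
    rw [this]
    exact hfrob b
  Q_ne := hQ

/-- **the regular Frobenius-fixed node** from a transversal crossing and thickness one. -/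
theorem s35ti_nodeAt_of (π : A0) (τ : F0 ≃+* F0) (Q : ℕ) (P1 P2 𝔫 : Ideal B) [h𝔫 : 𝔫.IsPrime]
    (hP1 : P1 ≤ 𝔫) (hP2 : P2 ≤ 𝔫) (hF : s35l_FrobAt τ Q 𝔫)
    (U V : B) (hU : U ∈ P2) (hV : V ∈ P1)
    (hgen : ∀ x ∈ 𝔫, ∃ s : B, s ∉ 𝔫 ∧ s * x ∈ Ideal.span ({algebraMap A0 B π, U, V} : Set B))
    (hthick : ∃ u v : F0, u * v = algebraMap A0 F0 π ∧
      (∃ s t : B, s ∉ 𝔫 ∧ t ∈ P2 ∧ (s : F0) * u = t) ∧
      (∃ s t : B, s ∉ 𝔫 ∧ t ∈ P1 ∧ (s : F0) * v = t) ∧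
      (∀ z ∈ P2, ∃ s c : B, s ∉ 𝔫 ∧ (s : F0) * (z : F0) = u * c) ∧
      (∀ z ∈ P1, ∃ s c : B, s ∉ 𝔫 ∧ (s : F0) * (z : F0) = v * c) ∧
      (∃ s t : B, s ∉ 𝔫 ∧ t ∉ P1 ∧ (s : F0) * u = t) ∧
      (∃ s t : B, s ∉ 𝔫 ∧ t ∉ P2 ∧ (s : F0) * v = t)) :
    s35l_NodeAt π τ Q P1 P2 𝔫 := by
  obtain ⟨u, v, huv, ⟨su, tu, hsu, htu, hu⟩, ⟨sv, tv, hsv, htv, hv⟩, hgu, hgv,
    ⟨su1, tu1, hsu1, htu1, hu1⟩, ⟨sv2, tv2, hsv2, htv2, hv2⟩⟩ := hthick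
  have h1𝔫 : (1 : B) ∉ 𝔫 := fun h => h𝔫.ne_top ((Ideal.eq_top_iff_one _).2 h)
  refine ⟨hP1, hP2, hF, u, v, 1, by rw [mul_one]; exact huv, ⟨1, 1, h1𝔫, h1𝔫, by simp⟩,
    ⟨su, tu, hsu, hP2 htu, hu⟩, ⟨sv, tv, hsv, hP1 htv, hv⟩, ?_,
    ⟨su1, tu1, fun h => hsu1 (hP1 h), htu1, hu1⟩, ⟨sv2, tv2, fun h => hsv2 (hP2 h), htv2, hv2⟩⟩
  intro z hz
  obtain ⟨s, hs, hsz⟩ := hgen z hz
  obtain ⟨a, y, hy, hay⟩ := Ideal.mem_span_insert.1 hsz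
  obtain ⟨b, c, hbc⟩ := Ideal.mem_span_pair.1 hy
  obtain ⟨sU, cU, hsU, hcU⟩ := hgu U hU
  obtain ⟨sV, cV, hsV, hcV⟩ := hgv V hV
  refine ⟨s * sU * sV, a * sU * sV, b * cU * sV, c * cV * sU,
    fun h => ?_, ?_⟩
  · rcases h𝔫.mem_or_mem h with h | h
    · rcases h𝔫.mem_or_mem h with h | h
      · exact hs h
      · exact hsU h
    · exact hsV h
  · have e1 : ((s : F0) * (z : F0)) = (a : F0) * algebraMap A0 F0 π + ((b : F0) * U + c * V) := by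
      have := congrArg (Subtype.val : B → F0) hay
      rw [← hbc] at this
      simpa using this
    push_cast
    have e2 : (s : F0) * sU * sV * z = (sU : F0) * sV * ((s : F0) * z) := by ring
    rw [e2, e1]
    have e3 : (sU : F0) * sV * ((a : F0) * algebraMap A0 F0 π + ((b : F0) * U + c * V)) =
        algebraMap A0 F0 π * (a * sU * sV) + (b : F0) * sV * ((sU : F0) * U) +
          (c : F0) * sU * ((sV : F0) * V) := by ring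
    rw [e3, hcU, hcV]
    ring

end NodeOf

section Cross

variable {A0 : Type*} [CommRing A0] {K E : Type*} [Field K] [Field E] [Algebra K E]
  [Algebra A0 K] [Algebra A0 E]
  {B' : Subalgebra A0 K} {B : Subalgebra A0 E}

/-- **the regular Frobenius-fixed node from the crossing package and thickness one.** -/
theorem s35ti_nodeAt_of_cross {φ : B' →+* B} {π' : B'} {q₀ : ℕ} {P1 P2 : Ideal B} {lam' : B'}
    {lamq : B} {c : ℤ[X]} (C : ssm_nx_Cross B' B φ π' q₀ P1 P2 lam' lamq c)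
    (π : A0) (hπ' : φ π' = algebraMap A0 B π) (τ : E ≃+* E) (Q : ℕ)
    (𝔫 : Ideal B) (h𝔫 : 𝔫.IsMaximal) (hP1 : P1 ≤ 𝔫) (hP2 : P2 ≤ 𝔫) (hF : s35l_FrobAt τ Q 𝔫)
    (hthick : ∃ u v : E, u * v = algebraMap A0 E π ∧
      (∃ s t : B, s ∉ 𝔫 ∧ t ∈ P2 ∧ (s : E) * u = t) ∧
      (∃ s t : B, s ∉ 𝔫 ∧ t ∈ P1 ∧ (s : E) * v = t) ∧
      (∀ z ∈ P2, ∃ s c : B, s ∉ 𝔫 ∧ (s : E) * (z : E) = u * c) ∧
      (∀ z ∈ P1, ∃ s c : B, s ∉ 𝔫 ∧ (s : E) * (z : E) = v * c) ∧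
      (∃ s t : B, s ∉ 𝔫 ∧ t ∉ P1 ∧ (s : E) * u = t) ∧
      (∃ s t : B, s ∉ 𝔫 ∧ t ∉ P2 ∧ (s : E) * v = t)) :
    s35l_NodeAt π τ Q P1 P2 𝔫 := by
  haveI : 𝔫.IsPrime := h𝔫.isPrime
  obtain ⟨-, -, -, -, d4, d5, -, -, d9⟩ := C.cross 𝔫 h𝔫 hP1 hP2
  rw [hπ'] at d9
  exact s35ti_nodeAt_of π τ Q P1 P2 𝔫 hP1 hP2 hF _ _ d4 d5 d9 hthick

end Cross

end Fermat.Agent.S35
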