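/-
Project S35, cell [TORIC-INST], LEGENDRE tower (helper20): [L]-φ CLOSED.  Prefix `s35ti_`.

`L ⊆ Q̄` a number field containing a primitive `N'`-th root of unity, `O` a discrete valuation ring
of `L` with uniformiser `q` odd, `q ∤ N'`, `φ1` a Frobenius lift at `O`, `τ = φ1_E²`
(`s35ti_leg_tau`), `Q = q²`:

* `s35ti_leg_nodeAt`  : every maximal crossing point `𝔫 ⊇ P1 + P2` of the chart `B_λ` is a REGULAR
  FROBENIUS-FIXED NODE (`s35l_NodeAt`, helper10): crossing package `ssm_nl_cross` + thickness one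
  `ssm_nlb_thick_nf` (helper14) + the Frobenius clause `s35ti_leg_node`;
* `s35ti_leg_pts1`    : every closed point of `B_λ` is smooth or such a node;
* `s35ti_leg_inf`     : the points at infinity of `B_{λ⁻¹}` are smooth;
* `s35ti_leg_locProvider` : `tori_LocProvider L q λ τ (q²) P1 P2 m` for every `m ≠ 0`
  (`s35ti_locProvider_of`, `Generic.lean`);
* `s35ti_leg_locHyp`  : `s35ti_leg_LocHyp N' q hq2 hqN'`;
* **`s35ti_leg_toricNF : s35_ToricNF N' q hq2 hqN'`** — helper6's [TORIC] seam over the unramified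
  number fields (Legendre cover), CLOSED.
-/
import Mathlib
import Fermat.Agent.S35.ToricInst.Generic
import Fermat.Agent.S35.ToricInst.NodeOf
import Fermat.Agent.S35.ToricInst.LegNF

set_option autoImplicit false
set_option linter.style.haveILetI false
set_option linter.unusedSectionVars false
set_option linter.unusedVariables false

noncomputable section

namespace Fermat.Agent.S35

open Fermat.Agent.SS Fermat.Agent.JT3 IntermediateField ModularCurve IsLocalRing AlgebraicCurve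

section NF

variable (L : Type) [Field L] [NumberField L] [Algebra L (AlgebraicClosure ℚ)]
  (O : ValuationSubring L) [IsDiscreteValuationRing O]
variable (N' q : ℕ) [NeZero N'] [NeZero q] [hq : Fact q.Prime] [CharP (ResidueField O) q]
  (hq2 : ¬ 2 ∣ q) (hqN' : ¬ q ∣ N') (hπ : Irreducible ((q : ℕ) : ↥O))
  (ζ : L) (hζ : IsPrimitiveRoot ζ N') (φ1 : L ≃+* L) (hφ1 : s35nf_FrobAt O φ1 q)

include hζ hφ1 in
set_option synthInstance.maxHeartbeats 400000 in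
set_option maxHeartbeats 3200000 in
/-- **the crossing points of `B_λ` are regular Frobenius-fixed nodes.** -/
theorem s35ti_leg_nodeAt
    (𝔫 : Ideal (fc_chart ↥O ({lg_lamE (N' * q)} : Set ↥(lg_E L (N' * q))))) (h𝔫 : 𝔫.IsMaximal)
    (hP1 : ssm_tp_P (fc_chart ↥O ({lg_lamE (N' * q)} : Set ↥(lg_E L (N' * q))))
      (ssm_gl_V1 O hπ N' q) ≤ 𝔫)
    (hP2 : ssm_tp_P (fc_chart ↥O ({lg_lamE (N' * q)} : Set ↥(lg_E L (N' * q))))
      (ssm_gl_V2 O hπ N' q hq2 hqN') ≤ 𝔫) :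
    s35l_NodeAt ((q : ℕ) : ↥O) (s35ti_leg_tau (N' * q) φ1) (q ^ 2)
      (ssm_tp_P (fc_chart ↥O ({lg_lamE (N' * q)} : Set ↥(lg_E L (N' * q))))
        (ssm_gl_V1 O hπ N' q))
      (ssm_tp_P (fc_chart ↥O ({lg_lamE (N' * q)} : Set ↥(lg_E L (N' * q))))
        (ssm_gl_V2 O hπ N' q hq2 hqN')) 𝔫 := by
  have hqO : ((q : ℕ) : O) ∈ maximalIdeal O := ssm_fln_q_mem L O q
  have hq2' : q ≠ 2 := ssm_fl_ne_two q hq2
  have hp := ssm_ll_prime L N' hπ q hqO hq2' hqN' ζ hζ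
  have hic := ssm_ll_ic1 L N' hπ q hqO hq2' hqN' ζ hζ
  have F := ssm_fl_facts O hπ N' q hq2 hqN' hp.1
  letI := ssm_gi_algebra (ssm_al_E_le L N' q)
  haveI := ssm_gt_isScalarTower O (ssm_al_E_le L N' q)
  haveI := ssm_go_isScalarTower O (lg_E L (N' * q))
  have C := ssm_nl_cross O hπ N' q hq2 hqN' hp.1 hic F
    (fun 𝔫' h1 h2 h3 h4 h5 => ssm_ll_EC L N' hπ q hqO hq2' hqN' 𝔫' h1 h2 h3 h4 h5)
  obtain ⟨-, hfrob⟩ := s35ti_leg_node O hπ N' q hq2 hqN' φ1 hφ1 hp.1 hic F 𝔫 h𝔫 hP1 hP2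
  have hF : s35l_FrobAt (s35ti_leg_tau (N' * q) φ1) (q ^ 2) 𝔫 :=
    s35ti_frobAt_of_restrict (s35ti_leg_tau (N' * q) φ1) (pow_ne_zero 2 hq.out.ne_zero) 𝔫
      (s35ti_leg_chart1 O (N' * q) φ1 hφ1) hfrob
  have hth := ssm_nlb_thick_nf L O N' q hq2 hqN' hπ ζ hζ 𝔫 h𝔫 hP1 hP2
  have e : algebraMap ↥O ↥(lg_E L (N' * q)) ((q : ℕ) : ↥O) = ((q : ℕ) : ↥(lg_E L (N' * q))) :=
    map_natCast _ q
  rw [← e] at hth
  exact s35ti_nodeAt_of_cross C ((q : ℕ) : ↥O) (ssm_cpi_phi_algebraMap _ _)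
    (s35ti_leg_tau (N' * q) φ1) (q ^ 2) 𝔫 h𝔫 hP1 hP2 hF hth

include hζ hφ1 in
set_option synthInstance.maxHeartbeats 400000 in
set_option maxHeartbeats 3200000 in
/-- **the closed points of `B_λ`**: smooth points and regular Frobenius-fixed nodes. -/
theorem s35ti_leg_pts1
    (𝔫 : Ideal (fc_chart ↥O ({lg_lamE (N' * q)} : Set ↥(lg_E L (N' * q))))) (h𝔫 : 𝔫.IsMaximal)
    (hπ𝔫 : algebraMap ↥O (fc_chart ↥O ({lg_lamE (N' * q)} : Set ↥(lg_E L (N' * q))))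
      ((q : ℕ) : ↥O) ∈ 𝔫) :
    ss_SmoothAt ((q : ℕ) : ↥O) (fc_chart ↥O ({lg_lamE (N' * q)} : Set ↥(lg_E L (N' * q)))) 𝔫 ∨
    s35l_NodeAt ((q : ℕ) : ↥O) (s35ti_leg_tau (N' * q) φ1) (q ^ 2)
      (ssm_tp_P (fc_chart ↥O ({lg_lamE (N' * q)} : Set ↥(lg_E L (N' * q))))
        (ssm_gl_V1 O hπ N' q))
      (ssm_tp_P (fc_chart ↥O ({lg_lamE (N' * q)} : Set ↥(lg_E L (N' * q))))
        (ssm_gl_V2 O hπ N' q hq2 hqN')) 𝔫 := by
  have hqO : ((q : ℕ) : O) ∈ maximalIdeal O := ssm_fln_q_mem L O q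
  have hq2' : q ≠ 2 := ssm_fl_ne_two q hq2
  have hp := ssm_ll_prime L N' hπ q hqO hq2' hqN' ζ hζ
  have F := ssm_fl_facts O hπ N' q hq2 hqN' hp.1
  have hs := ssm_si_smooth O hπ N' q hq2 hqN' hp.1 hp.2.1
    (ssm_ll_ic1 L N' hπ q hqO hq2' hqN' ζ hζ) (ssm_ll_ic2 L N' hπ q hqO hq2' hqN' ζ hζ)
    (ssm_ll_reg1 L N' hπ q hqO hq2' hqN' ζ hζ) (ssm_ll_reg2 L N' hπ q hqO hq2' hqN' ζ hζ) F
  by_cases h1 : ssm_tp_P (fc_chart ↥O ({lg_lamE (N' * q)} : Set ↥(lg_E L (N' * q))))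
      (ssm_gl_V1 O hπ N' q) ≤ 𝔫
  · by_cases h2 : ssm_tp_P (fc_chart ↥O ({lg_lamE (N' * q)} : Set ↥(lg_E L (N' * q))))
        (ssm_gl_V2 O hπ N' q hq2 hqN') ≤ 𝔫
    · exact Or.inr (s35ti_leg_nodeAt L O N' q hq2 hqN' hπ ζ hζ φ1 hφ1 𝔫 h𝔫 h1 h2)
    · exact Or.inl (hs.1 𝔫 h𝔫 hπ𝔫 h2)
  · exact Or.inl (hs.2.1 𝔫 h𝔫 hπ𝔫 h1)

include hζ hq2 hqN' hπ in
set_option synthInstance.maxHeartbeats 400000 in
set_option maxHeartbeats 3200000 in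
/-- **the points at infinity of `B_{λ⁻¹}` are smooth.** -/
theorem s35ti_leg_inf
    (𝔫 : Ideal (fc_chart ↥O ({(lg_lamE (N' * q))⁻¹} : Set ↥(lg_E L (N' * q)))))
    (h𝔫 : 𝔫.IsMaximal)
    (hπ𝔫 : algebraMap ↥O (fc_chart ↥O ({(lg_lamE (N' * q))⁻¹} : Set ↥(lg_E L (N' * q))))
      ((q : ℕ) : ↥O) ∈ 𝔫)
    (hμ : (⟨(lg_lamE (N' * q))⁻¹, fc_x_mem_chart _⟩ :
      fc_chart ↥O ({(lg_lamE (N' * q))⁻¹} : Set ↥(lg_E L (N' * q)))) ∈ 𝔫) :
    ss_SmoothAt ((q : ℕ) : ↥O)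
      (fc_chart ↥O ({(lg_lamE (N' * q))⁻¹} : Set ↥(lg_E L (N' * q)))) 𝔫 := by
  have hqO : ((q : ℕ) : O) ∈ maximalIdeal O := ssm_fln_q_mem L O q
  have hq2' : q ≠ 2 := ssm_fl_ne_two q hq2
  have hp := ssm_ll_prime L N' hπ q hqO hq2' hqN' ζ hζ
  have F := ssm_fl_facts O hπ N' q hq2 hqN' hp.1
  have hs := ssm_si_smooth O hπ N' q hq2 hqN' hp.1 hp.2.1
    (ssm_ll_ic1 L N' hπ q hqO hq2' hqN' ζ hζ) (ssm_ll_ic2 L N' hπ q hqO hq2' hqN' ζ hζ)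
    (ssm_ll_reg1 L N' hπ q hqO hq2' hqN' ζ hζ) (ssm_ll_reg2 L N' hπ q hqO hq2' hqN' ζ hζ) F
  haveI := ssm_go_isScalarTower O (lg_E L (N' * q))
  haveI : FiniteDimensional L⟮(lg_lamE (N' * q) : lg_E L (N' * q))⟯ ↥(lg_E L (N' * q)) :=
    lgf_finite L (N' * q)
  have hx : Transcendental L (lg_lamE (L := L) (N' * q)) :=
    lgf_lam_transcendental L (N' * q) two_ne_zero
  have H := ssm_gl_hyp O hπ N' q hq2 hqN' hp.1
  obtain ⟨hWB, hw, hw', hsub⟩ := ssm_inf_of_facts (A0 := ↥O) (ssm_gl_W L N' q hq2 hqN')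
    (ssm_si_W_algebraMap O N' q hq2 hqN') F
  exact ssm_inf_ff_smooth (L := L) hπ hx H (ssm_gl_W L N' q hq2 hqN')
    (ssm_al_WE_WE L N' q hq.out hq2 hqN') (fun _ => Iff.rfl) hWB hq.out.two_le hw hw' hsub
    hs.2.2.1 hs.2.2.2 𝔫 h𝔫 hπ𝔫 hμ

include hζ hφ1 in
set_option synthInstance.maxHeartbeats 400000 in
set_option maxHeartbeats 3200000 in
/-- **[L]-φ for the Legendre tower** over `(L, O, q)`: the local factorisations as a
`tori_LocProvider`. -/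
theorem s35ti_leg_locProvider {m : ℕ} (hm : m ≠ 0) :
    tori_LocProvider L ((q : ℕ) : ↥O) (lg_lamE (N' * q) : ↥(lg_E L (N' * q)))
      (s35ti_leg_tau (N' * q) φ1) (q ^ 2)
      (ssm_tp_P (fc_chart ↥O ({lg_lamE (N' * q), (lg_lamE (N' * q))⁻¹} :
        Set ↥(lg_E L (N' * q)))) (ssm_gl_V1 O hπ N' q))
      (ssm_tp_P (fc_chart ↥O ({lg_lamE (N' * q), (lg_lamE (N' * q))⁻¹} :
        Set ↥(lg_E L (N' * q)))) (ssm_gl_V2 O hπ N' q hq2 hqN')) m := by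
  have hqO : ((q : ℕ) : O) ∈ maximalIdeal O := ssm_fln_q_mem L O q
  have hq2' : q ≠ 2 := ssm_fl_ne_two q hq2
  have hp := ssm_ll_prime L N' hπ q hqO hq2' hqN' ζ hζ
  haveI := ssm_go_isScalarTower O (lg_E L (N' * q))
  haveI : FiniteDimensional L⟮(lg_lamE (N' * q) : lg_E L (N' * q))⟯ ↥(lg_E L (N' * q)) :=
    lgf_finite L (N' * q)
  have hx : Transcendental L (lg_lamE (L := L) (N' * q)) :=
    lgf_lam_transcendental L (N' * q) two_ne_zero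
  have H := ssm_gl_hyp O hπ N' q hq2 hqN' hp.1
  have hQ : 2 ≤ q ^ 2 := by
    have := hq.out.two_le
    nlinarith
  refine s35ti_locProvider_of (L := L) hπ hx H (s35ti_leg_tau (N' * q) φ1) (φ1.trans φ1) ?_ hQ
    (fun z hz => (s35ti_leg_V1m O hπ N' q φ1 hφ1 z).2 hz)
    (fun z hz => (s35ti_leg_V2m O hπ N' q hq2 hqN' φ1 hφ1 z).2 hz)
    (fun 𝔫 h𝔫 hπ𝔫 => s35ti_leg_pts1 L O N' q hq2 hqN' hπ ζ hζ φ1 hφ1 𝔫 h𝔫 hπ𝔫)
    (fun 𝔫 h𝔫 hπ𝔫 hμ => s35ti_leg_inf L O N' q hq2 hqN' hπ ζ hζ 𝔫 h𝔫 hπ𝔫 hμ) hm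
  intro a
  rw [s35ti_leg_tau_apply, ssm_sg_aut_algebraMap, ssm_sg_aut_algebraMap]
  rfl

end NF

section Seam

variable (N' q : ℕ) [NeZero N'] [NeZero q] [hq : Fact q.Prime] (hq2 : ¬ 2 ∣ q) (hqN' : ¬ q ∣ N')

/-- **[L]-φ for the Legendre tower**, closed. -/
theorem s35ti_leg_locHyp : s35ti_leg_LocHyp N' q hq2 hqN' := by
  intro L _ _ _ O _ _ hπ ζ hζ φ1 hφ1 m hm
  have hm0 : m ≠ 0 := by
    rintro rfl
    rw [Nat.cast_zero] at hm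
    exact not_isUnit_zero hm
  exact s35ti_leg_locProvider L O N' q hq2 hqN' hπ ζ hζ φ1 hφ1 hm0

/-- **[TORIC] over the unramified number fields, Legendre cover: CLOSED.** -/
theorem s35ti_leg_toricNF : s35_ToricNF N' q hq2 hqN' :=
  s35ti_leg_toricNF_of_loc N' q hq2 hqN' (s35ti_leg_locHyp N' q hq2 hqN')

end Seam

end Fermat.Agent.S35
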