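/-
Project S35, cell [TORIC-INST], LEGENDRE tower (helper20): **(T-L) `s35_ToricNF1` CLOSED**
(helper6's official primed seam of `S35/Seams2.lean`: the finite set `T` is fixed by the inertia
group and the levels `L1` are `I_A`-fixed).  Prefix `s35ti_`.

* `s35ti_leg_toricNF1 : s35_ToricNF1 N' q hq2 hqN'` (no hypothesis): `T := {ζ_{N'}}`, fixed by `I_A`
  since `q ∤ N'` (`s35d_root_fixed`); `s35ti_leg_locProvider` + `s35ti_leg_toricAt_of_loc`.
  The hypothesis `∀ x ∈ L1, ∀ s ∈ I_A, s x = x` is not used.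
-/
import Mathlib
import Fermat.Agent.S35.ToricInst.LegLoc
import Fermat.Agent.S35.Seams2

set_option autoImplicit false
set_option linter.style.haveILetI false
set_option linter.unusedSectionVars false
set_option linter.unusedVariables false

noncomputable section

namespace Fermat.Agent.S35

open Fermat.Agent.SS Fermat.Agent.JT3 IntermediateField ModularCurve IsLocalRing AlgebraicCurve

local notation "GQ" => (AlgebraicClosure ℚ ≃ₐ[ℚ] AlgebraicClosure ℚ)
local notation "Qb" => AlgebraicClosure ℚ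

section NF1

variable (N' q : ℕ) [NeZero N'] [NeZero q] [hq : Fact q.Prime] (hq2 : ¬ 2 ∣ q) (hqN' : ¬ q ∣ N')

set_option synthInstance.maxHeartbeats 200000 in
set_option maxHeartbeats 1600000 in
/-- **(T-L): `s35_ToricNF1` for the Legendre tower** (no hypothesis). -/
theorem s35ti_leg_toricNF1 : s35_ToricNF1 N' q hq2 hqN' := by
  classical
  intro A hAq φ hφ
  obtain ⟨ζ', hζ'⟩ := HasEnoughRootsOfUnity.exists_primitiveRoot Qb N'
  refine ⟨{ζ'}, ?_, fun L1 hfd hsub hfix => ?_⟩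
  · intro t ht s hs
    rw [Finset.mem_singleton] at ht
    rw [ht]
    exact s35d_root_fixed A q hAq hqN' hζ'.pow_eq_one hs
  intro _ _ hπ φ1 hφ1 m hqm hζm
  have hζmem : ζ' ∈ L1 := hsub (by simp)
  haveI : NumberField ↥L1 := { to_charZero := inferInstance, to_finiteDimensional := hfd }
  have hζ : IsPrimitiveRoot (⟨ζ', hζmem⟩ : ↥L1) N' :=
    (IsPrimitiveRoot.map_iff_of_injective (f := algebraMap ↥L1 Qb)
      (FaithfulSMul.algebraMap_injective ↥L1 Qb)).1 hζ'
  have hF := s35ti_frobAt_of_frobenius A φ hφ L1 φ1 hφ1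
  have hm0 : m ≠ 0 := by
    rintro rfl
    exact hqm (dvd_zero q)
  have hmem := lg_natCast_mem_maximalIdeal A hAq ↥L1
  have hmu : IsUnit ((m : ℕ) : ↥(A.comap (algebraMap ↥L1 Qb))) :=
    lg_isUnit_natCast hmem ((Nat.Prime.coprime_iff_not_dvd hq.out).2 hqm).symm
  exact s35ti_leg_toricAt_of_loc ↥L1 (A.comap (algebraMap ↥L1 Qb)) hπ N' q hq2 hqN'
    ⟨ζ', hζmem⟩ hζ φ1 hF m hmu
    (s35ti_leg_locProvider ↥L1 (A.comap (algebraMap ↥L1 Qb)) N' q hq2 hqN' hπ ⟨ζ', hζmem⟩ hζ φ1 hF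
      hm0)

end NF1

end Fermat.Agent.S35
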